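import Fermat.Agent.A2.IF.H429.IF
import Fermat.Agent.A2.H313.StrongHensel

/-!
# NC-IF (helper397): a henselian level with algebraically closed residue field contains the
inertia field

`P` a valuation subring of `ℚ̄` over the prime `q`, `E ⊆ ℚ̄` an intermediate field such that
`R_E = P ∩ E` is a henselian local ring with algebraically closed residue field.  Then
`ℚ̄^{I_P} ⊆ E` (`inertiaField_le_of_henselian`); in particular this holds for every
`A2.GoodField P E` (`inertiaField_le_of_goodField`).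

Route (no uniqueness of extensions of valuations, no approximation theorem):
* Teichmüller elements (roots of `X ^ N - X`, `q ∣ N`) lie in `E`: the minimal polynomial over
  `E` of such a root has coefficients in `R_E`, a root in the residue field (algebraically
  closed), which is simple, hence a root in `R_E` (Hensel);
* the inertia field is unramified (`H429.exists_zpow_of_mem_inertiaField`), so every
  `x ∈ P ∩ ℚ̄^{I}` has Teichmüller expansions: `x ≡ a mod q ^ K` with `a ∈ E`;
* Newton's form of Hensel's lemma (`A2.H313.exists_root_newton`) for an integer polynomial `F`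
  with `F(x) = 0 ≠ F'(x)` produces a root `b ∈ R_E` close to `x`, and `b = x`.
-/

set_option autoImplicit false
set_option linter.style.haveILetI false
set_option linter.unusedSectionVars false

open scoped Pointwise
open Polynomial

namespace Fermat.Agent.Ribet.H397

open Fermat.Agent.A2 Fermat.Agent.A2.IF.H429
open Fermat.Agent.S55.Bridge Fermat.Agent.S55.Bridge.H594

attribute [local instance] isAlgebraic_Qbar isGalois_Qbar

local notation "Qb" => AlgebraicClosure ℚ

variable (P : ValuationSubring Qb) (E : IntermediateField ℚ Qb)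

/-! ## Valuation arithmetic in `P` -/

theorem natCast_mem_nonunits397 (q : ℕ) (hP : P.LiesOverPrime q) : (q : Qb) ∈ P.nonunits := hP

theorem natCast_mem397 (n : ℕ) : (n : Qb) ∈ P := natCast_mem P n

theorem intCast_mem397 (n : ℤ) : (n : Qb) ∈ P := intCast_mem P n

theorem natCast_pow_mem397 (q K : ℕ) : (q : Qb) ^ K ∈ P := pow_mem (natCast_mem P q) K

/-- products of an element of `P` with a non-unit are non-units -/
theorem mul_mem_nonunits397 {a b : Qb} (ha : a ∈ P) (hb : b ∈ P.nonunits) :
    a * b ∈ P.nonunits := by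
  rw [ValuationSubring.mem_nonunits_iff] at hb ⊢
  rw [map_mul]
  have h1 : P.valuation a ≤ 1 := (P.valuation_le_one_iff a).mpr ha
  calc P.valuation a * P.valuation b ≤ 1 * P.valuation b := by gcongr
    _ = P.valuation b := one_mul _
    _ < 1 := hb

theorem nonunits_mem397 {a : Qb} (ha : a ∈ P.nonunits) : a ∈ P :=
  P.nonunits_subset ha

theorem add_mem_nonunits397 {a b : Qb} (ha : a ∈ P.nonunits) (hb : b ∈ P.nonunits) :
    a + b ∈ P.nonunits := by
  rw [ValuationSubring.mem_nonunits_iff] at ha hb ⊢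
  exact lt_of_le_of_lt (P.valuation.map_add a b) (max_lt ha hb)

theorem neg_mem_nonunits397 {a : Qb} (ha : a ∈ P.nonunits) : -a ∈ P.nonunits := by
  rw [ValuationSubring.mem_nonunits_iff] at ha ⊢
  rwa [Valuation.map_neg]

theorem sub_mem_nonunits397 {a b : Qb} (ha : a ∈ P.nonunits) (hb : b ∈ P.nonunits) :
    a - b ∈ P.nonunits := by
  rw [sub_eq_add_neg]
  exact add_mem_nonunits397 P ha (neg_mem_nonunits397 P hb)

/-- a unit plus a non-unit is a unit (valuation `1`) -/
theorem valuation_add_eq_one397 {ε μ : Qb} (hε : P.valuation ε = 1) (hμ : μ ∈ P.nonunits) :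
    P.valuation (ε + μ) = 1 := by
  rw [ValuationSubring.mem_nonunits_iff] at hμ
  have h := Valuation.map_add_eq_of_lt_left P.valuation (x := ε) (y := μ) (by rw [hε]; exact hμ)
  rw [h, hε]

theorem not_mem_nonunits_of_valuation_eq_one397 {ε : Qb} (hε : P.valuation ε = 1) :
    ε ∉ P.nonunits := by
  rw [ValuationSubring.mem_nonunits_iff, hε]
  exact lt_irrefl _

theorem mem_of_valuation_eq_one397 {ε : Qb} (hε : P.valuation ε = 1) : ε ∈ P :=
  (P.valuation_le_one_iff ε).mp hε.le

/-! ## The inertia field is unramified -/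

/-- nonzero elements of `P ∩ ℚ̄^I` are a power of `q` times a unit -/
theorem exists_pow_mul_unit397 (q : ℕ) (hq : q.Prime) (hP : P.LiesOverPrime q) {y : Qb}
    (hyP : y ∈ P) (hyI : y ∈ inertiaField P) (hy0 : y ≠ 0) :
    ∃ (D : ℕ) (ε : Qb), P.valuation ε = 1 ∧ y = (q : Qb) ^ D * ε := by
  obtain ⟨k, hk⟩ := exists_zpow_of_mem_inertiaField P q hq hP y hyI hy0
  have hq0 : (q : Qb) ≠ 0 := by exact_mod_cast hq.ne_zero
  rcases k with (D | m)
  · refine ⟨D, y / (q : Qb) ^ D, ?_, ?_⟩
    · simpa using hk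
    · field_simp
  · exfalso
    have h1 : y / (q : Qb) ^ (Int.negSucc m) = y * (q : Qb) ^ (m + 1) := by
      rw [zpow_negSucc, div_inv_eq_mul]
    rw [h1] at hk
    have h3 : (q : Qb) ^ (m + 1) ∈ P.nonunits := by
      rw [pow_succ]
      exact mul_mem_nonunits397 P (natCast_pow_mem397 P q m) hP
    exact not_mem_nonunits_of_valuation_eq_one397 P hk (mul_mem_nonunits397 P hyP h3)

/-- non-units of `P ∩ ℚ̄^I` are divisible by `q` in `P` -/
theorem div_natCast_mem397 (q : ℕ) (hq : q.Prime) (hP : P.LiesOverPrime q) {y : Qb}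
    (hy : y ∈ P.nonunits) (hyI : y ∈ inertiaField P) : y / (q : Qb) ∈ P := by
  have hq0 : (q : Qb) ≠ 0 := by exact_mod_cast hq.ne_zero
  by_cases hy0 : y = 0
  · rw [hy0, zero_div]; exact zero_mem P
  obtain ⟨D, ε, hε, hyε⟩ := exists_pow_mul_unit397 P q hq hP (nonunits_mem397 P hy) hyI hy0
  rcases D with _ | D
  · exfalso
    rw [pow_zero, one_mul] at hyε
    rw [hyε] at hy
    exact not_mem_nonunits_of_valuation_eq_one397 P hε hy
  · have h1 : y / (q : Qb) = (q : Qb) ^ D * ε := by
      rw [hyε, pow_succ]; field_simp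
    rw [h1]
    exact mul_mem (natCast_pow_mem397 P q D) (mem_of_valuation_eq_one397 P hε)

/-! ## Teichmüller elements lie in `E` -/

theorem natCast_mem_maximalIdeal_RE397 (q : ℕ) (hP : P.LiesOverPrime q) (N : ℕ) (hqN : q ∣ N) :
    ((N : ℕ) : RE P E) ∈ IsLocalRing.maximalIdeal (RE P E) := by
  obtain ⟨c, rfl⟩ := hqN
  rw [Nat.cast_mul]
  apply Ideal.mul_mem_right
  rw [mem_maximalIdeal_RE_iff]
  have h2 : ((((q : ℕ) : RE P E) : E) : Qb) = (q : Qb) := by simp
  rw [h2]
  exact hP

theorem isUnit_sub_of_mem_maximalIdeal397 {R : Type*} [CommRing R] [IsLocalRing R] {u m : R}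
    (hu : IsUnit u) (hm : m ∈ IsLocalRing.maximalIdeal R) : IsUnit (u - m) := by
  rw [← IsLocalRing.notMem_maximalIdeal]
  intro h
  have h1 : u ∈ IsLocalRing.maximalIdeal R := by
    have := Ideal.add_mem _ h hm
    simpa using this
  exact (IsLocalRing.notMem_maximalIdeal.mpr hu) h1

/-- A root in `ℚ̄` of `X ^ N - X`, `q ∣ N`, lies in `E`. -/
theorem mem_of_pow_eq_self397 (q : ℕ) (hP : P.LiesOverPrime q)
    [HenselianLocalRing (RE P E)] [IsAlgClosed (IsLocalRing.ResidueField (RE P E))]
    (N : ℕ) (hqN : q ∣ N) (hN : 2 ≤ N) (r : Qb) (hr : r ^ N = r) : r ∈ E := by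
  classical
  let f : (RE P E)[X] := X ^ N - X
  have hf : f.Monic := by
    apply monic_X_pow_sub
    rw [degree_X]
    exact_mod_cast hN
  have hfmap : f.map (algebraMap (RE P E) E) = X ^ N - X := by simp [f]
  have hrint : IsIntegral E r := Algebra.IsIntegral.isIntegral r
  have hmon : (minpoly E r).Monic := minpoly.monic hrint
  have hdvd : minpoly E r ∣ f.map (algebraMap (RE P E) E) := by
    apply minpoly.dvd
    rw [hfmap]
    simp [hr]
  obtain ⟨c, hc⟩ := hdvd
  have hcmon : c.Monic := by
    have h1 : (minpoly E r * c).Monic := hc ▸ hf.map _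
    exact hmon.of_mul_monic_left h1
  obtain ⟨h₀, hh₀⟩ := IsIntegrallyClosed.eq_map_mul_C_of_dvd E hf (Dvd.intro c hc.symm)
  obtain ⟨c₀, hc₀⟩ := IsIntegrallyClosed.eq_map_mul_C_of_dvd E hf (Dvd.intro_left _ hc.symm)
  rw [hmon.leadingCoeff, C_1, mul_one] at hh₀
  rw [hcmon.leadingCoeff, C_1, mul_one] at hc₀
  have hinj : Function.Injective (algebraMap (RE P E) E) :=
    IsFractionRing.injective (RE P E) E
  have hfac : f = h₀ * c₀ := by
    apply Polynomial.map_injective _ hinj
    rw [Polynomial.map_mul, hh₀, hc₀, hc]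
  have hh₀mon : h₀.Monic := monic_of_injective hinj (by rw [hh₀]; exact hmon)
  have hh₀deg : h₀.natDegree = (minpoly E r).natDegree := by
    rw [← hh₀, hh₀mon.natDegree_map]
  have hhpos : 0 < (minpoly E r).natDegree := minpoly.natDegree_pos hrint
  have hbdeg : (h₀.map (IsLocalRing.residue (RE P E))).degree ≠ 0 := by
    have h2 : (h₀.map (IsLocalRing.residue (RE P E))).natDegree = h₀.natDegree :=
      hh₀mon.natDegree_map _
    intro h0
    have := natDegree_eq_zero_iff_degree_le_zero.mpr h0.le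
    omega
  obtain ⟨sb, hsb⟩ := IsAlgClosed.exists_root _ hbdeg
  obtain ⟨s, rfl⟩ := IsLocalRing.residue_surjective sb
  have hs0 : h₀.eval s ∈ IsLocalRing.maximalIdeal (RE P E) := by
    rw [← IsLocalRing.residue_eq_zero_iff, ← eval_map_apply]
    exact hsb
  have hNm := natCast_mem_maximalIdeal_RE397 P E q hP N hqN
  have hfd : IsUnit (f.derivative.eval s) := by
    have h1 : f.derivative.eval s = -(1 - (N : RE P E) * s ^ (N - 1)) := by
      simp [f, derivative_X_pow]
    rw [h1]
    exact (isUnit_sub_of_mem_maximalIdeal397 isUnit_one (Ideal.mul_mem_right _ _ hNm)).neg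
  have hh₀d : IsUnit (h₀.derivative.eval s) := by
    have h1 : h₀.derivative.eval s * c₀.eval s =
        f.derivative.eval s - h₀.eval s * c₀.derivative.eval s := by
      rw [hfac, derivative_mul]
      simp only [eval_add, eval_mul]
      ring
    have h2 : IsUnit (h₀.derivative.eval s * c₀.eval s) := by
      rw [h1]
      exact isUnit_sub_of_mem_maximalIdeal397 hfd (Ideal.mul_mem_right _ _ hs0)
    exact isUnit_of_mul_isUnit_left h2
  obtain ⟨a, ha, -⟩ := HenselianLocalRing.is_henselian h₀ hh₀mon s hs0 hh₀d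
  have hroot : (minpoly E r).IsRoot (algebraMap (RE P E) E a) := by
    rw [← hh₀, IsRoot, eval_map_apply, ha, map_zero]
  have hdeg1 : (minpoly E r).degree = 1 :=
    degree_eq_one_of_irreducible_of_root (minpoly.irreducible hrint) hroot
  obtain ⟨e, he⟩ := minpoly.mem_range_of_degree_eq_one E r hdeg1
  rw [← he]
  exact e.2

/-- **Teichmüller lifts in `E`.**  Every element of `P` is congruent modulo the maximal ideal to
an element of `P ∩ E ∩ ℚ̄^I` (a root of `X ^ N - X`). -/
theorem exists_teichmuller_mem397 (q : ℕ) (hq : q.Prime) (hP : P.LiesOverPrime q)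
    [HenselianLocalRing (RE P E)] [IsAlgClosed (IsLocalRing.ResidueField (RE P E))]
    (a : Qb) (ha : a ∈ P) :
    ∃ z : Qb, z ∈ P ∧ z ∈ inertiaField P ∧ z ∈ E ∧ a - z ∈ P.nonunits := by
  obtain ⟨N, hqN, hN0, haN⟩ := exists_pow_sub_mem_nonunits P q hq hP a ha
  have hN2 : 2 ≤ N := le_trans hq.two_le (Nat.le_of_dvd hN0 hqN)
  let g : (P : Type)[X] := X ^ N - X
  have hg : g.Monic := by
    apply monic_X_pow_sub
    rw [degree_X]
    exact_mod_cast hN2
  have hgmap : g.map P.subtype = X ^ N - X := by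
    simp [g]
  have hroots : ∀ r ∈ (g.map P.subtype).roots, r ∈ P := fun r hr =>
    mem_of_isRoot_map P g hg r (isRoot_of_mem_roots hr)
  have heval : (g.map P.subtype).eval a ∈ P.nonunits := by
    rw [hgmap]
    simpa using haN
  obtain ⟨z, hz, hza⟩ := exists_root_sub_mem_nonunits P _ (hg.map _) hroots a ha heval
  have hzP : z ∈ P := hroots z hz
  have hzN : z ^ N = z := by
    have h1 : (g.map P.subtype).eval z = 0 := isRoot_of_mem_roots hz
    rw [hgmap] at h1
    simp only [eval_sub, eval_pow, eval_X] at h1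
    exact sub_eq_zero.mp h1
  refine ⟨z, hzP, ?_, mem_of_pow_eq_self397 P E q hP N hqN hN2 z hzN, hza⟩
  rw [mem_inertiaField_iff]
  intro τ hτ
  have hτzP : τ z ∈ P := mem_of_mem_decomp P (decomp_of_inertia P hτ) hzP
  have hτzN : (τ z) ^ N = τ z := by rw [← map_pow, hzN]
  have key := root_unique_of_derivative_notMem (IsLocalRing.maximalIdeal P) g
    (⟨z, hzP⟩ : P) ⟨z, hzP⟩ ⟨τ z, hτzP⟩ ?_ ?_ ?_ ?_ ?_
  · exact (congrArg Subtype.val key).symm
  · show g.eval _ = 0
    simp only [g, eval_sub, eval_pow, eval_X]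
    apply Subtype.ext
    simpa using sub_eq_zero.mpr hzN
  · show g.eval _ = 0
    simp only [g, eval_sub, eval_pow, eval_X]
    apply Subtype.ext
    simpa using sub_eq_zero.mpr hτzN
  · intro hmem
    have hN := natCast_mem_maximalIdeal_of_dvd P q hP N hqN
    have h1 : g.derivative.eval (⟨z, hzP⟩ : P) =
        (N : P) * (⟨z, hzP⟩ : P) ^ (N - 1) - 1 := by
      simp [g, derivative_X_pow]
    rw [h1] at hmem
    have h2 := Ideal.sub_mem _ (Ideal.mul_mem_right ((⟨z, hzP⟩ : P) ^ (N - 1)) _ hN) hmem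
    rw [sub_sub_cancel] at h2
    exact (Ideal.ne_top_iff_one _).mp (IsLocalRing.maximalIdeal.isMaximal P).ne_top h2
  · simp
  · rw [← ValuationSubring.coe_mem_nonunits_iff]
    exact sub_mem_nonunits_of_inertia P hτ hzP

/-! ## Teichmüller expansions -/

/-- Elements of `P ∩ ℚ̄^I` are approximated modulo `q ^ K` by elements of `P ∩ E`. -/
theorem exists_approx397 (q : ℕ) (hq : q.Prime) (hP : P.LiesOverPrime q)
    [HenselianLocalRing (RE P E)] [IsAlgClosed (IsLocalRing.ResidueField (RE P E))]
    (K : ℕ) : ∀ x : Qb, x ∈ P → x ∈ inertiaField P →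
      ∃ a : Qb, a ∈ P ∧ a ∈ E ∧ ∃ w : Qb, w ∈ P ∧ x - a = (q : Qb) ^ K * w := by
  have hq0 : (q : Qb) ≠ 0 := by exact_mod_cast hq.ne_zero
  induction K with
  | zero =>
    intro x hx _
    exact ⟨0, zero_mem P, zero_mem E, x, hx, by simp⟩
  | succ K ih =>
    intro x hx hxI
    obtain ⟨z, hzP, hzI, hzE, hxz⟩ := exists_teichmuller_mem397 P E q hq hP x hx
    have huI : (x - z) / (q : Qb) ∈ inertiaField P :=
      div_mem (sub_mem hxI hzI) (natCast_mem (inertiaField P) q)
    have huP : (x - z) / (q : Qb) ∈ P :=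
      div_natCast_mem397 P q hq hP hxz (sub_mem hxI hzI)
    obtain ⟨a, haP, haE, w, hw, hxa⟩ := ih _ huP huI
    refine ⟨z + (q : Qb) * a, add_mem hzP (mul_mem (natCast_mem P q) haP),
      add_mem hzE (mul_mem (natCast_mem E q) haE), w, hw, ?_⟩
    have h1 : x - (z + (q : Qb) * a) = (q : Qb) * ((x - z) / (q : Qb) - a) := by
      field_simp
      ring
    rw [h1, hxa]
    ring

/-! ## Integer polynomials: evaluation, Taylor expansion -/

/-- evaluation of integer polynomials commutes with ring homomorphisms -/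
theorem map_eval_intPoly397 {A B : Type*} [CommRing A] [CommRing B] (ψ : A →+* B) (F : ℤ[X])
    (s : A) : ψ ((F.map (Int.castRingHom A)).eval s) = aeval (ψ s) F := by
  rw [eval_map, hom_eval₂, aeval_def]
  congr 1
  exact RingHom.ext_int _ _

theorem coe_eval_intPoly397 (F : ℤ[X]) (y : P) :
    (((F.map (Int.castRingHom P)).eval y : P) : Qb) = aeval (y : Qb) F :=
  map_eval_intPoly397 P.subtype F y

theorem aeval_mem397 (F : ℤ[X]) {x : Qb} (hx : x ∈ P) : aeval x F ∈ P := by
  rw [← coe_eval_intPoly397 P F ⟨x, hx⟩]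
  exact Subtype.property _

theorem coe_eval_intPoly_field397 (L : IntermediateField ℚ Qb) (F : ℤ[X]) (y : L) :
    (((F.map (Int.castRingHom L)).eval y : L) : Qb) = aeval (y : Qb) F :=
  map_eval_intPoly397 (algebraMap L Qb) F y

theorem aeval_mem_field397 (L : IntermediateField ℚ Qb) (F : ℤ[X]) {x : Qb} (hx : x ∈ L) :
    aeval x F ∈ L := by
  rw [← coe_eval_intPoly_field397 L F ⟨x, hx⟩]
  exact Subtype.property _

/-- first order Taylor expansion with remainder in `P` -/
theorem exists_sub_factor397 (F : ℤ[X]) {y₁ y₂ : Qb} (h₁ : y₁ ∈ P) (h₂ : y₂ ∈ P) :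
    ∃ z : Qb, z ∈ P ∧ aeval y₁ F - aeval y₂ F = z * (y₁ - y₂) := by
  obtain ⟨z, hz⟩ := Polynomial.evalSubFactor (F.map (Int.castRingHom P))
    (⟨y₁, h₁⟩ : P) ⟨y₂, h₂⟩
  refine ⟨z, z.2, ?_⟩
  have := congrArg (Subtype.val : P → Qb) hz
  simpa [coe_eval_intPoly397] using this

/-- second order Taylor expansion with remainder in `P` -/
theorem exists_binom397 (F : ℤ[X]) {y δ : Qb} (hy : y ∈ P) (hδ : δ ∈ P) :
    ∃ k : Qb, k ∈ P ∧
      aeval (y + δ) F = aeval y F + aeval y (derivative F) * δ + k * δ ^ 2 := by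
  obtain ⟨k, hk⟩ := Polynomial.binomExpansion (F.map (Int.castRingHom P))
    (⟨y, hy⟩ : P) ⟨δ, hδ⟩
  refine ⟨k, k.2, ?_⟩
  have := congrArg (Subtype.val : P → Qb) hk
  rw [derivative_map] at this
  simpa [coe_eval_intPoly397] using this

/-- every algebraic number is a simple root of an integer polynomial -/
theorem exists_int_poly_simple_root397 (x : Qb) :
    ∃ F : ℤ[X], aeval x F = 0 ∧ aeval x (derivative F) ≠ 0 := by
  classical
  have hex : ∃ n : ℕ, ∃ F : ℤ[X], F ≠ 0 ∧ aeval x F = 0 ∧ F.natDegree = n := by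
    obtain ⟨h, hprim, hh⟩ := exists_primitive_aeval_eq_zero x
    exact ⟨h.natDegree, h, hprim.ne_zero, hh, rfl⟩
  obtain ⟨F, hF0, hFx, hFn⟩ := Nat.find_spec hex
  refine ⟨F, hFx, ?_⟩
  intro hd
  have hdeg : F.natDegree ≠ 0 := by
    intro h0
    obtain ⟨c, hc⟩ := natDegree_eq_zero.mp h0
    rw [← hc] at hFx hF0
    rw [aeval_C] at hFx
    have hc0 : c = 0 := by
      have h1 : ((c : ℤ) : Qb) = 0 := by simpa using hFx
      exact_mod_cast h1
    exact hF0 (by rw [hc0, C_0])
  have hd0 : derivative F ≠ 0 := fun h => hdeg (Polynomial.derivative_eq_zero.mp h)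
  have hlt : (derivative F).natDegree < Nat.find hex := by
    rw [← hFn]
    exact natDegree_derivative_lt hdeg
  exact Nat.find_min hex hlt ⟨derivative F, hd0, hd, rfl⟩

/-! ## The main theorem -/

/-- **A henselian level with algebraically closed residue field contains the inertia field.** -/
theorem inertiaField_le_of_henselian397 (q : ℕ) (hq : q.Prime) (hP : P.LiesOverPrime q)
    [HenselianLocalRing (RE P E)] [IsAlgClosed (IsLocalRing.ResidueField (RE P E))] :
    inertiaField P ≤ E := by
  have hq0 : (q : Qb) ≠ 0 := by exact_mod_cast hq.ne_zero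
  have key : ∀ x : Qb, x ∈ P → x ∈ inertiaField P → x ∈ E := by
    intro x hxP hxI
    obtain ⟨F, hFx, hFd⟩ := exists_int_poly_simple_root397 x
    have hcP : aeval x (derivative F) ∈ P := aeval_mem397 P _ hxP
    have hcI : aeval x (derivative F) ∈ inertiaField P := aeval_mem_field397 _ _ hxI
    obtain ⟨D, ε, hε, hcε⟩ := exists_pow_mul_unit397 P q hq hP hcP hcI hFd
    obtain ⟨a, haP, haE, w, hw, hxa⟩ := exists_approx397 P E q hq hP (2 * D + 1) x hxP hxI
    have hax : a - x = -((q : Qb) ^ (2 * D + 1) * w) := by rw [← hxa]; ring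
    -- `F(a) = q ^ (2D+1) * (..)`
    obtain ⟨z₁, hz₁, hz₁e⟩ := exists_sub_factor397 P F haP hxP
    have hFa : aeval a F = (q : Qb) ^ (2 * D + 1) * (-(z₁ * w)) := by
      rw [hFx, sub_zero, hax] at hz₁e
      rw [hz₁e]; ring
    -- `F'(a) = q ^ D * ε'`, `ε'` a unit
    obtain ⟨z₂, hz₂, hz₂e⟩ := exists_sub_factor397 P (derivative F) haP hxP
    have hFda : aeval a (derivative F) =
        (q : Qb) ^ D * (ε + (q : Qb) ^ (D + 1) * (-(z₂ * w))) := by
      rw [hax] at hz₂e
      have h1 : aeval a (derivative F) =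
          aeval x (derivative F) + z₂ * -((q : Qb) ^ (2 * D + 1) * w) := by
        rw [← hz₂e]; ring
      rw [h1, hcε]; ring
    have hqpow : (q : Qb) ^ (D + 1) ∈ P.nonunits := by
      rw [pow_succ]; exact mul_mem_nonunits397 P (natCast_pow_mem397 P q D) hP
    obtain ⟨ε', hε'def⟩ : ∃ ε' : Qb, ε' = ε + (q : Qb) ^ (D + 1) * (-(z₂ * w)) := ⟨_, rfl⟩
    rw [← hε'def] at hFda
    have hε'1 : P.valuation ε' = 1 := by
      rw [hε'def]
      apply valuation_add_eq_one397 P hε
      rw [mul_comm]
      exact mul_mem_nonunits397 P (neg_mem (mul_mem hz₂ hw)) hqpow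
    have hε'0 : ε' ≠ 0 := by
      intro h; rw [h, map_zero] at hε'1; exact zero_ne_one hε'1
    have hε'P : ε' ∈ P := mem_of_valuation_eq_one397 P hε'1
    have hε'inv : ε'⁻¹ ∈ P := by
      apply mem_of_valuation_eq_one397
      rw [map_inv₀, hε'1, inv_one]
    -- the Newton quotient `t = F(a) / F'(a)²`
    obtain ⟨t, htdef⟩ : ∃ t : Qb, t = (-(z₁ * w) * (ε'⁻¹) ^ 2) * (q : Qb) := ⟨_, rfl⟩
    have htP : t ∈ P.nonunits := by
      rw [htdef]
      exact mul_mem_nonunits397 P (mul_mem (neg_mem (mul_mem hz₁ hw)) (pow_mem hε'inv 2)) hP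
    have hFaE : aeval a F ∈ E := aeval_mem_field397 E F haE
    have hFdaE : aeval a (derivative F) ∈ E := aeval_mem_field397 E _ haE
    have htE : t ∈ E := by
      have h1 : t = aeval a F / (aeval a (derivative F)) ^ 2 := by
        rw [hFa, hFda, htdef]; field_simp; ring
      rw [h1]
      exact div_mem hFaE (pow_mem hFdaE 2)
    have hteq : aeval a F = (aeval a (derivative F)) ^ 2 * t := by
      rw [hFa, hFda, htdef]; field_simp; ring
    -- Newton's lemma in `R_E`
    let φ : RE P E →+* Qb := P.subtype.comp (inclRE P E)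
    have hφinj : Function.Injective φ := by
      intro x y hxy
      apply Subtype.ext
      apply Subtype.ext
      exact hxy
    let s : RE P E := ⟨⟨a, haE⟩, haP⟩
    let tR : RE P E := ⟨⟨t, htE⟩, nonunits_mem397 P htP⟩
    have hφs : φ s = a := rfl
    have hφt : φ tR = t := rfl
    have htm : tR ∈ IsLocalRing.maximalIdeal (RE P E) := by
      rw [mem_maximalIdeal_RE_iff]; exact htP
    have hfd : (F.map (Int.castRingHom (RE P E))).derivative =
        (derivative F).map (Int.castRingHom (RE P E)) := derivative_map _ _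
    have hfs : (F.map (Int.castRingHom (RE P E))).eval s =
        ((F.map (Int.castRingHom (RE P E))).derivative.eval s) ^ 2 * tR := by
      apply hφinj
      rw [map_mul, map_pow, hfd, map_eval_intPoly397 φ F s,
        map_eval_intPoly397 φ (derivative F) s, hφs, hφt]
      exact hteq
    obtain ⟨y, hy, hroot⟩ := Fermat.Agent.A2.H313.exists_root_newton _ s tR htm hfs
    have hyP : φ y ∈ P.nonunits := (mem_maximalIdeal_RE_iff P E y).mp hy
    have hyE : φ y ∈ E := (y : E).2
    obtain ⟨b, hbdef⟩ : ∃ b : Qb, b = a + aeval a (derivative F) * φ y := ⟨_, rfl⟩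
    have hbE : b ∈ E := by
      rw [hbdef]; exact add_mem haE (mul_mem hFdaE hyE)
    have hFb : aeval b F = 0 := by
      have h1 : φ ((F.map (Int.castRingHom (RE P E))).eval
          (s + (F.map (Int.castRingHom (RE P E))).derivative.eval s * y)) = 0 := by
        rw [show (F.map (Int.castRingHom (RE P E))).eval
          (s + (F.map (Int.castRingHom (RE P E))).derivative.eval s * y) = 0 from hroot, map_zero]
      rw [map_eval_intPoly397 φ F, map_add, map_mul, hfd,
        map_eval_intPoly397 φ (derivative F) s, hφs] at h1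
      rw [hbdef]; exact h1
    -- `b - x = q ^ D * μ`, `μ` a non-unit
    obtain ⟨μ, hμdef⟩ : ∃ μ : Qb, μ = (q : Qb) ^ (D + 1) * (-w) + ε' * φ y := ⟨_, rfl⟩
    have hμP : μ ∈ P.nonunits := by
      rw [hμdef]
      refine add_mem_nonunits397 P ?_ (mul_mem_nonunits397 P hε'P hyP)
      rw [mul_comm]
      exact mul_mem_nonunits397 P (neg_mem hw) hqpow
    have hδ : b - x = (q : Qb) ^ D * μ := by
      have h1 : b - x = (a - x) + aeval a (derivative F) * φ y := by rw [hbdef]; ring
      rw [h1, hFda, hax, hμdef]; ring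
    have hδP : b - x ∈ P := by
      rw [hδ]; exact mul_mem (natCast_pow_mem397 P q D) (nonunits_mem397 P hμP)
    obtain ⟨k, hk, hke⟩ := exists_binom397 P F hxP hδP
    have hxb : x + (b - x) = b := by ring
    rw [hxb, hFb, hFx, zero_add] at hke
    by_cases hbx : b - x = 0
    · have h1 : x = b := (sub_eq_zero.mp hbx).symm
      rw [h1]; exact hbE
    · exfalso
      have h1 : aeval x (derivative F) + k * (b - x) = 0 := by
        have h2 : (b - x) * (aeval x (derivative F) + k * (b - x)) = 0 := by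
          linear_combination -hke
        exact (mul_eq_zero.mp h2).resolve_left hbx
      rw [hcε, hδ] at h1
      have h3 : ε = -(k * μ) := by
        have h4 : (q : Qb) ^ D * (ε + k * μ) = 0 := by linear_combination h1
        have h5 := (mul_eq_zero.mp h4).resolve_left (pow_ne_zero _ hq0)
        linear_combination h5
      have h6 : ε ∈ P.nonunits := by
        rw [h3]; exact neg_mem_nonunits397 P (mul_mem_nonunits397 P hk hμP)
      exact not_mem_nonunits_of_valuation_eq_one397 P hε h6
  intro x hxI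
  rcases P.mem_or_inv_mem x with hxP | hxP
  · exact key x hxP hxI
  · have h1 := key x⁻¹ hxP (inv_mem hxI)
    simpa using inv_mem h1

/-- **NC-IF (1).**  A good level contains the inertia field. -/
theorem inertiaField_le_of_goodField (q : ℕ) (hq : q.Prime) (hP : P.LiesOverPrime q)
    (hE : GoodField P E) : inertiaField P ≤ E := by
  haveI := hE.henselian
  haveI := hE.algClosed
  exact inertiaField_le_of_henselian397 P E q hq hP

end Fermat.Agent.Ribet.H397
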