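import Fermat.Agent.Ribet.H397.GoodUp

/-!
# NC-IF (helper397), part 2: good levels can be enlarged

`exists_goodField_ge` : for a good level `E` of `P` (`A2.GoodField P E`) and a finite set `S` of
algebraic numbers there is a good level `E' ⊇ E` containing `S`
(`E' = E(all ℚ-conjugates of S)`).
-/

set_option autoImplicit false
set_option linter.style.haveILetI false
set_option linter.unusedSectionVars false

open scoped Pointwise
open Polynomial

namespace Fermat.Agent.Ribet.H397

open Fermat.Agent.A2 Fermat.Agent.A2.IF.H429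
open Fermat.Agent.S55.Bridge Fermat.Agent.S55.Bridge.H594

attribute [local instance] isAlgebraic_Qbar isGalois_Qbar

local notation "Qb" => AlgebraicClosure ℚ

variable (P : ValuationSubring Qb) (E : IntermediateField ℚ Qb)

/-- Conjugates over a field `E ⊇ ℚ̄^I` have the same valuation. -/
theorem valuation_eq_of_root_minpoly397 (hEI : inertiaField P ≤ E) (x r : Qb)
    (hr : aeval r (minpoly E x) = 0) : P.valuation r = P.valuation x := by
  haveI : IsGalois E Qb := IsGalois.tower_top_of_isGalois ℚ E Qb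
  haveI : Normal E Qb := IsGalois.to_normal
  have hx : IsAlgebraic E x := Algebra.IsAlgebraic.isAlgebraic x
  obtain ⟨σ, hσ⟩ := minpoly.exists_algEquiv_of_root hx hr
  have h1 := valuation_map_eq_of_fixes P E hEI (σ.restrictScalars ℚ)
    (fun e he => σ.commutes ⟨e, he⟩) r
  rw [← hσ]
  exact h1.symm

/-- units of `R_E` have valuation `1` -/
theorem valuation_unit_RE397 (u : RE P E) (hu : IsUnit u) :
    P.valuation (((u : E) : Qb)) = 1 := by
  have h1 : P.valuation (((u : E) : Qb)) ≤ 1 := (P.valuation_le_one_iff _).mpr u.2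
  have h2 : ¬ P.valuation (((u : E) : Qb)) < 1 := by
    intro h
    have h3 : u ∈ IsLocalRing.maximalIdeal (RE P E) := by
      rw [mem_maximalIdeal_RE_iff, ValuationSubring.mem_nonunits_iff]
      exact h
    exact (IsLocalRing.mem_maximalIdeal _).mp h3 hu
  exact le_antisymm h1 (not_lt.mp h2)

/-- In a discretely valued level every element has, after raising to a fixed power, the value
of a power of `q`. -/
theorem exists_pow_valuation_eq_base397 (q : ℕ) (hq : q.Prime) (hP : P.LiesOverPrime q)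
    [IsDiscreteValuationRing (RE P E)] :
    ∃ e₀ : ℕ, 0 < e₀ ∧ ∀ x : Qb, x ∈ E → x ≠ 0 →
      ∃ k : ℤ, P.valuation (x ^ e₀) = P.valuation (q : Qb) ^ k := by
  obtain ⟨ϖ, hϖ⟩ := IsDiscreteValuationRing.exists_irreducible (RE P E)
  have hcoe : ((((q : ℕ) : RE P E) : E) : Qb) = (q : Qb) := by simp
  have hq0 : ((q : ℕ) : RE P E) ≠ 0 := by
    intro h0
    rw [h0] at hcoe
    have h2 : (q : Qb) = 0 := by rw [← hcoe]; rfl
    exact hq.ne_zero (by exact_mod_cast h2)
  obtain ⟨n, u, hnu⟩ := IsDiscreteValuationRing.eq_unit_mul_pow_irreducible hq0 hϖ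
  have hvq : P.valuation (q : Qb) = P.valuation (((ϖ : E) : Qb)) ^ n := by
    have h1 : P.valuation ((((q : ℕ) : RE P E) : E) : Qb) =
        P.valuation ((((u : RE P E) * ϖ ^ n : RE P E) : E) : Qb) := by rw [← hnu]
    rw [hcoe] at h1
    rw [h1]
    have h2 : ((((u : RE P E) * ϖ ^ n : RE P E) : E) : Qb) =
        (((u : RE P E) : E) : Qb) * (((ϖ : E) : Qb)) ^ n := by
      push_cast
      rfl
    rw [h2, map_mul, map_pow, valuation_unit_RE397 P E _ u.isUnit, one_mul]
  have hn0 : 0 < n := by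
    rcases Nat.eq_zero_or_pos n with h0 | h0
    · exfalso
      rw [h0, pow_zero] at hvq
      have h3 : (q : Qb) ∈ P.nonunits := hP
      rw [ValuationSubring.mem_nonunits_iff, hvq] at h3
      exact lt_irrefl _ h3
    · exact h0
  -- elements of `R_E`
  have key : ∀ y : RE P E, y ≠ 0 →
      ∃ m : ℕ, P.valuation (((y : E) : Qb) ^ n) = P.valuation (q : Qb) ^ m := by
    intro y hy
    obtain ⟨m, v, hmv⟩ := IsDiscreteValuationRing.eq_unit_mul_pow_irreducible hy hϖ
    refine ⟨m, ?_⟩
    have h2 : (((y : E) : Qb)) = (((v : RE P E) : E) : Qb) * (((ϖ : E) : Qb)) ^ m := by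
      conv_lhs => rw [hmv]
      push_cast
      rfl
    rw [h2, map_pow, map_mul, map_pow, valuation_unit_RE397 P E _ v.isUnit, one_mul, hvq,
      ← pow_mul, ← pow_mul, mul_comm]
  refine ⟨n, hn0, fun x hxE hx0 => ?_⟩
  rcases P.mem_or_inv_mem x with hxP | hxP
  · obtain ⟨m, hm⟩ := key ⟨⟨x, hxE⟩, hxP⟩ (fun h => hx0 (congrArg (fun y : RE P E => ((y : E) : Qb)) h))
    exact ⟨m, by rw [zpow_natCast]; exact hm⟩
  · obtain ⟨m, hm⟩ := key ⟨⟨x⁻¹, inv_mem hxE⟩, hxP⟩
      (fun h => inv_ne_zero hx0 (congrArg (fun y : RE P E => ((y : E) : Qb)) h))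
    refine ⟨-(m : ℤ), ?_⟩
    have h1 : P.valuation ((x⁻¹) ^ n) = P.valuation (q : Qb) ^ m := hm
    rw [inv_pow, map_inv₀] at h1
    rw [zpow_neg, zpow_natCast, ← h1, inv_inv]

/-- For `x` in a finite extension `E₁` of `E ⊇ ℚ̄^I`, a fixed power of `x` has the value of a
power of `q`. -/
theorem exists_pow_valuation_eq_ext397 (q : ℕ) (hEI : inertiaField P ≤ E) (e₀ : ℕ)
    (he₀ : ∀ x : Qb, x ∈ E → x ≠ 0 →
      ∃ k : ℤ, P.valuation (x ^ e₀) = P.valuation (q : Qb) ^ k)
    (E₁ : IntermediateField E Qb) [FiniteDimensional E E₁]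
    (x : Qb) (hx : x ∈ E₁) (hx0 : x ≠ 0) :
    ∃ k : ℤ, P.valuation (x ^ ((Module.finrank E E₁).factorial * e₀)) =
      P.valuation (q : Qb) ^ k := by
  have hxint : IsIntegral E x := Algebra.IsIntegral.isIntegral x
  set p := minpoly E x with hp
  have hd0 : 0 < p.natDegree := minpoly.natDegree_pos hxint
  have hd : p.natDegree ≤ Module.finrank E E₁ := by
    have h1 := minpoly.natDegree_le (A := E) (⟨x, hx⟩ : E₁)
    rw [IntermediateField.minpoly_eq] at h1
    exact h1
  have hpm : p.Monic := minpoly.monic hxint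
  have hc0 : p.coeff 0 ≠ 0 := minpoly.coeff_zero_ne_zero hxint hx0
  have hval : P.valuation ((p.coeff 0 : E) : Qb) = P.valuation x ^ p.natDegree := by
    have hsplit : (p.map (algebraMap E Qb)).Splits := IsAlgClosed.splits _
    have h1 := hsplit.coeff_zero_eq_prod_roots_of_monic (hpm.map _)
    rw [coeff_map] at h1
    have h2 : algebraMap E Qb (p.coeff 0) = ((p.coeff 0 : E) : Qb) := rfl
    rw [h2] at h1
    rw [h1, map_mul, map_pow, Valuation.map_neg, map_one, one_pow, one_mul, map_multiset_prod]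
    have h3 : (p.map (algebraMap E Qb)).roots.map P.valuation =
        Multiset.replicate (p.map (algebraMap E Qb)).roots.card (P.valuation x) := by
      rw [Multiset.eq_replicate]
      refine ⟨Multiset.card_map _ _, fun b hb => ?_⟩
      obtain ⟨r, hr, rfl⟩ := Multiset.mem_map.mp hb
      apply valuation_eq_of_root_minpoly397 P E hEI x r
      have h4 := isRoot_of_mem_roots hr
      rw [IsRoot, eval_map, ← aeval_def] at h4
      exact h4
    rw [h3, Multiset.prod_replicate, ← hsplit.natDegree_eq_card_roots, hpm.natDegree_map]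
  obtain ⟨k, hk⟩ := he₀ ((p.coeff 0 : E) : Qb) (p.coeff 0).2 (fun h => hc0 (Subtype.ext h))
  rw [map_pow, hval] at hk
  obtain ⟨e, he⟩ := Nat.dvd_factorial hd0 hd
  refine ⟨k * e, ?_⟩
  rw [he, map_pow, zpow_mul, ← hk, zpow_natCast, ← pow_mul, ← pow_mul]
  congr 1
  ring

/-! ## Enlarging a good level -/

/-- `E(conjugates of S)` as an intermediate field over `E`. -/
noncomputable def up₁ (S : Finset Qb) : IntermediateField E Qb :=
  IntermediateField.adjoin E (conjSet S)

instance up₁_finiteDimensional (S : Finset Qb) : FiniteDimensional E (up₁ E S) := by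
  haveI : Finite (conjSet S) := (conjSet_finite S).to_subtype
  exact IntermediateField.finiteDimensional_adjoin
    (fun x _ => Algebra.IsIntegral.isIntegral x)

/-- `E(conjugates of S)` as an intermediate field over `ℚ`. -/
noncomputable def up (S : Finset Qb) : IntermediateField ℚ Qb :=
  (up₁ E S).restrictScalars ℚ

theorem mem_up_iff (S : Finset Qb) (x : Qb) : x ∈ up E S ↔ x ∈ up₁ E S := Iff.rfl

theorem le_up (S : Finset Qb) : E ≤ up E S := by
  intro x hx
  rw [mem_up_iff]
  exact (up₁ E S).algebraMap_mem ⟨x, hx⟩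

theorem mem_up_of_mem (S : Finset Qb) {s : Qb} (hs : s ∈ S) : s ∈ up E S := by
  rw [mem_up_iff]
  exact IntermediateField.subset_adjoin _ _ (mem_conjSet S hs)

/-- `up E S` is stable under every automorphism stabilising `E`. -/
theorem up_stable (S : Finset Qb) (τ : Qb ≃ₐ[ℚ] Qb) (hτ : ∀ e ∈ E, τ e ∈ E) {x : Qb}
    (hx : x ∈ up E S) : τ x ∈ up E S := by
  rw [mem_up_iff] at hx ⊢
  unfold up₁ at hx ⊢
  induction hx using IntermediateField.adjoin_induction with
  | mem x hx => exact IntermediateField.subset_adjoin _ _ (map_mem_conjSet S τ hx)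
  | algebraMap x =>
    exact (IntermediateField.adjoin E (conjSet S)).algebraMap_mem ⟨τ x, hτ _ x.2⟩
  | add x y _ _ hx hy => rw [map_add]; exact add_mem hx hy
  | inv x _ hx => rw [map_inv₀]; exact inv_mem hx
  | mul x y _ _ hx hy => rw [map_mul]; exact mul_mem hx hy

/-- An automorphism fixing `E` and the conjugates of `S` pointwise fixes `up E S`. -/
theorem up_fixed (S : Finset Qb) (ρ : Qb ≃ₐ[ℚ] Qb)
    (hρ : ∀ e ∈ E, ρ e = e) (hS : ∀ x ∈ conjSet S, ρ x = x)
    {x : Qb} (hx : x ∈ up E S) : ρ x = x := by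
  rw [mem_up_iff] at hx
  unfold up₁ at hx
  induction hx using IntermediateField.adjoin_induction with
  | mem x hx => exact hS x hx
  | algebraMap x => exact hρ _ x.2
  | add x y _ _ hx hy => rw [map_add, hx, hy]
  | inv x _ hx => rw [map_inv₀, hx]
  | mul x y _ _ hx hy => rw [map_mul, hx, hy]

/-- **NC-IF (2), explicit form.**  `E(conjugates of S)` is a good level if `E` is. -/
theorem goodField_up (q : ℕ) (hq : q.Prime) (hP : P.LiesOverPrime q)
    (hE : GoodField P E) (S : Finset Qb) : GoodField P (up E S) := by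
  have hEI : inertiaField P ≤ E := inertiaField_le_of_goodField P E q hq hP hE
  have hEI' : inertiaField P ≤ up E S := hEI.trans (le_up E S)
  refine ⟨?_, ?_, henselian_RE P (up E S) hEI',
    isAlgClosed_residueField_RE P (up E S) q hq hP hEI', ?_, ?_⟩
  · intro τ hτ e he
    exact up_stable E S τ (fun e he => hE.stable τ hτ e he) he
  · haveI := hE.dvr
    obtain ⟨e₀, he₀pos, he₀⟩ := exists_pow_valuation_eq_base397 P E q hq hP
    exact isDiscreteValuationRing_RE_of_pow P q hq hP (up E S)
      ((Module.finrank E (up₁ E S)).factorial * e₀)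
      (Nat.mul_pos (Nat.factorial_pos _) he₀pos)
      (fun x hx hx0 => exists_pow_valuation_eq_ext397 P E q hEI e₀ he₀ (up₁ E S) x hx hx0)
  · intro τ hτ e _ heP
    exact sub_mem_nonunits_of_inertia P hτ heP
  · intro τ hτ
    obtain ⟨r₁, hr₁, hE₁⟩ := hE.finite_order τ hτ
    obtain ⟨r₂, hr₂, hT⟩ := exists_pow_fixes_finset τ (conjSet_finite S).toFinset
    refine ⟨r₁ * r₂, Nat.mul_pos hr₁ hr₂, fun e he => ?_⟩
    rw [iterate_eq_pow_apply]
    apply up_fixed E S (τ ^ (r₁ * r₂)) _ _ he
    · intro e he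
      apply pow_mul_apply_eq τ r₁ r₂ e
      rw [← iterate_eq_pow_apply]
      exact hE₁ e he
    · intro x hx
      rw [mul_comm]
      exact pow_mul_apply_eq τ r₂ r₁ x (hT x ((conjSet_finite S).mem_toFinset.mpr hx))

/-- **NC-IF (2).**  A good level can be enlarged to a good level containing a given finite set. -/
theorem exists_goodField_ge (q : ℕ) (hq : q.Prime) (P : ValuationSubring Qb)
    (hP : P.LiesOverPrime q) (E : IntermediateField ℚ Qb) (hE : GoodField P E)
    (S : Finset Qb) :
    ∃ E' : IntermediateField ℚ Qb, E ≤ E' ∧ (∀ s ∈ S, s ∈ E') ∧ GoodField P E' :=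
  ⟨up E S, le_up E S, fun _ hs => mem_up_of_mem E S hs, goodField_up P E q hq hP hE S⟩

end Fermat.Agent.Ribet.H397
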